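import Fermat.Agent.Supersolvable.Structure
import Mathlib.GroupTheory.SpecificGroups.Alternating
import Mathlib.GroupTheory.Perm.Cycle.Type

/-!
# `S₃` is supersolvable, `A₄` is not
-/

set_option autoImplicit false
set_option linter.style.haveILetI false

noncomputable section

open Subgroup

namespace FA.Supersolvable

/-- `S₃` is supersolvable. -/
theorem isSupersolvable_perm_three : IsSupersolvable (Equiv.Perm (Fin 3)) := by
  have hcard : Nat.card (alternatingGroup (Fin 3)) = 3 := by
    rw [nat_card_alternatingGroup, Nat.card_fin]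
    rfl
  haveI : Fact (Nat.Prime 3) := ⟨by decide⟩
  haveI : IsCyclic (alternatingGroup (Fin 3)) := isCyclic_of_prime_card hcard
  obtain ⟨x, hx⟩ := (Subgroup.isCyclic_iff_exists_zpowers_eq_top (alternatingGroup (Fin 3))).1
    inferInstance
  refine IsSupersolvable.of_cyclic_normal hx.symm ?_
  haveI : Fact (Nat.Prime 2) := ⟨by decide⟩
  haveI : IsCyclic (Equiv.Perm (Fin 3) ⧸ alternatingGroup (Fin 3)) :=
    isCyclic_of_prime_card (p := 2)
    (by rw [← Subgroup.index_eq_card]; exact alternatingGroup.index_eq_two)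
  exact isSupersolvable_of_isCyclic

/-- `A₄` is not supersolvable: its Sylow `3`-subgroup is not normal. -/
theorem not_isSupersolvable_alternating_four :
    ¬ IsSupersolvable (alternatingGroup (Fin 4)) := fun h => by
  haveI : Fact (Nat.Prime 3) := ⟨by decide⟩
  have hcard : Nat.card (alternatingGroup (Fin 4)) = 12 := by
    rw [nat_card_alternatingGroup, Nat.card_fin]
    rfl
  obtain ⟨P⟩ : Nonempty (Sylow 3 (alternatingGroup (Fin 4))) := inferInstance
  haveI := h.hasPrimeIndices.sylow_normal (p := 3) (fun q hq hd => by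
    rw [hcard] at hd
    have := Nat.le_of_dvd (by norm_num) hd
    by_contra hlt
    interval_cases q <;> first | omega | exact absurd hq (by decide)) P
  haveI := P.unique_of_normal ‹_›
  have hP : Nat.card (P : Subgroup (alternatingGroup (Fin 4))) = 3 := by
    obtain ⟨j, hj⟩ := IsPGroup.iff_card.1 P.2
    have h1 : 3 ∣ 3 ^ j := hj ▸ P.dvd_card_of_dvd_card (hcard.symm ▸ by norm_num)
    have h2 : 3 ^ j ∣ 12 := hcard ▸ hj ▸ Subgroup.card_subgroup_dvd_card _
    rcases j with _ | _ | j
    · norm_num at h1
    · exact hj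
    · exfalso
      have := (pow_dvd_pow 3 (show 2 ≤ j + 2 by omega)).trans h2
      norm_num at this
  haveI : IsCyclic (P : Subgroup (alternatingGroup (Fin 4))) := isCyclic_of_prime_card hP
  let a : alternatingGroup (Fin 4) := ⟨Equiv.swap 0 1 * Equiv.swap 1 2,
    Equiv.Perm.mem_alternatingGroup.2 (by decide)⟩
  let b : alternatingGroup (Fin 4) := ⟨Equiv.swap 0 1 * Equiv.swap 1 3,
    Equiv.Perm.mem_alternatingGroup.2 (by decide)⟩
  have hmem : ∀ g : alternatingGroup (Fin 4), g ^ 3 = 1 →
      g ∈ (P : Subgroup (alternatingGroup (Fin 4))) := fun g hg => by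
    obtain ⟨Q, hQ⟩ := (IsPGroup.of_card (p := 3) (n := if g = 1 then 0 else 1)
      (show Nat.card (zpowers g) = _ by
        rw [Nat.card_zpowers]
        split_ifs with h1
        · rw [h1, orderOf_one, pow_zero]
        · rw [pow_one, orderOf_eq_prime hg h1])).exists_le_sylow
    rw [Subsingleton.elim Q P] at hQ
    exact hQ (mem_zpowers g)
  letI := (‹IsCyclic (P : Subgroup (alternatingGroup (Fin 4)))›).commGroup
  have hab : a * b = b * a := congrArg Subtype.val
    (mul_comm (⟨a, hmem a (by decide)⟩ : (P : Subgroup (alternatingGroup (Fin 4))))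
      ⟨b, hmem b (by decide)⟩)
  exact absurd hab (by decide)

end FA.Supersolvable

end
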