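import Fermat.Agent.Supersolvable.Basic
import Mathlib.FieldTheory.Galois.Basic

/-!
# Supersolvable Galois groups

A finite Galois group is supersolvable iff the extension is a tower of cyclic extensions each
Galois over the base field.
-/

set_option autoImplicit false
set_option linter.style.haveILetI false

noncomputable section

open Subgroup IntermediateField

namespace FA.Supersolvable

variable {K L : Type*} [Field K] [Field L] [Algebra K L] [FiniteDimensional K L] [IsGalois K L]

/-- `F` is a cyclic Galois extension of `E`. -/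
def IsCyclicStep (E F : IntermediateField K L) : Prop :=
  ∃ h : E ≤ F, IsGalois E (extendScalars h) ∧ IsCyclic (extendScalars h ≃ₐ[E] extendScalars h)

/-- A step between fields Galois over the base is cyclic iff the fixing subgroup grows by one
element. -/
theorem isCyclicStep_iff (E F : IntermediateField K L) [IsGalois K F] :
    IsCyclicStep E F ↔ ∃ σ, E.fixingSubgroup = F.fixingSubgroup ⊔ zpowers σ := by
  constructor
  · rintro ⟨h, hgal, hcyc⟩
    haveI := hgal
    haveI := hcyc
    let f : E.fixingSubgroup →* (extendScalars h ≃ₐ[E] extendScalars h) :=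
      (AlgEquiv.restrictNormalHom (extendScalars h)).comp (fixingSubgroupEquiv E).toMonoidHom
    have hf : Function.Surjective f :=
      (AlgEquiv.restrictNormalHom_surjective L).comp (fixingSubgroupEquiv E).surjective
    obtain ⟨g, hg⟩ := IsCyclic.exists_generator (α := extendScalars h ≃ₐ[E] extendScalars h)
    obtain ⟨s, hs⟩ := hf g
    refine ⟨s, le_antisymm (fun τ hτ => ?_) (sup_le (fixingSubgroup_le h) (zpowers_le.2 s.2))⟩
    obtain ⟨j, hj⟩ := hg (f ⟨τ, hτ⟩)
    have hk : (⟨τ, hτ⟩ * (s ^ j)⁻¹ : E.fixingSubgroup) ∈ f.ker := by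
      rw [MonoidHom.mem_ker, map_mul, map_inv, map_zpow, hs, show g ^ j = f ⟨τ, hτ⟩ from hj,
        mul_inv_cancel]
    have hk' : fixingSubgroupEquiv E (⟨τ, hτ⟩ * (s ^ j)⁻¹) ∈
        (AlgEquiv.restrictNormalHom (F := E) (K₁ := L) (extendScalars h)).ker := hk
    rw [IntermediateField.restrictNormalHom_ker, IntermediateField.mem_fixingSubgroup_iff] at hk'
    have hF : τ * ((s : L ≃ₐ[K] L) ^ j)⁻¹ ∈ F.fixingSubgroup :=
      (IntermediateField.mem_fixingSubgroup_iff _ _).2 fun x hx => hk' x hx
    rw [← inv_mul_cancel_right τ ((s : L ≃ₐ[K] L) ^ j)]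
    exact mul_mem_sup hF (zpow_mem (mem_zpowers _) j)
  · rintro ⟨σ, hσ⟩
    have hle : E ≤ F := by
      rw [← IsGalois.fixedField_fixingSubgroup E, ← IsGalois.fixedField_fixingSubgroup F, hσ]
      exact fixedField_le le_sup_left
    haveI : Normal E (extendScalars hle) :=
      IntermediateField.normal_iff_forall_map_le'.mpr fun τ => by
        rintro _ ⟨x, hx, rfl⟩
        exact IntermediateField.normal_iff_forall_map_le'.mp
          (inferInstance : Normal K F) (τ.restrictScalars K) ⟨x, hx, rfl⟩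
    refine ⟨hle, ⟨⟩, ?_⟩
    let f : E.fixingSubgroup →* (extendScalars hle ≃ₐ[E] extendScalars hle) :=
      (AlgEquiv.restrictNormalHom (extendScalars hle)).comp (fixingSubgroupEquiv E).toMonoidHom
    have hf : Function.Surjective f :=
      (AlgEquiv.restrictNormalHom_surjective L).comp (fixingSubgroupEquiv E).surjective
    have hσE : σ ∈ E.fixingSubgroup := hσ ▸ mem_sup_right (mem_zpowers σ)
    refine ⟨⟨f ⟨σ, hσE⟩, fun y => ?_⟩⟩
    obtain ⟨⟨τ, hτ⟩, rfl⟩ := hf y
    have hτ' : τ ∈ ((F.fixingSubgroup ⊔ zpowers σ : Subgroup (L ≃ₐ[K] L)) : Set (L ≃ₐ[K] L)) := by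
      rw [← hσ]; exact hτ
    rw [Subgroup.normal_mul] at hτ'
    obtain ⟨a, ha, b, ⟨j, rfl⟩, rfl⟩ := hτ'
    refine ⟨j, ?_⟩
    have haE : a ∈ E.fixingSubgroup := fixingSubgroup_le hle ha
    have ha1 : f ⟨a, haE⟩ = 1 := by
      show _ ∈ (AlgEquiv.restrictNormalHom (F := E) (K₁ := L) (extendScalars hle)).ker
      rw [IntermediateField.restrictNormalHom_ker, IntermediateField.mem_fixingSubgroup_iff]
      exact fun x hx => (IntermediateField.mem_fixingSubgroup_iff _ _).1 ha x hx
    show f ⟨σ, hσE⟩ ^ j = f ⟨a * σ ^ j, hτ⟩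
    rw [show (⟨a * σ ^ j, hτ⟩ : E.fixingSubgroup) = ⟨a, haE⟩ * ⟨σ, hσE⟩ ^ j from rfl, map_mul,
      map_zpow, ha1, one_mul]

/-- **Supersolvable Galois groups**: towers of cyclic extensions each Galois over the base. -/
theorem isSupersolvable_galois_iff :
    IsSupersolvable (L ≃ₐ[K] L) ↔
      ∃ (n : ℕ) (E : ℕ → IntermediateField K L), E 0 = ⊥ ∧ E n = ⊤ ∧
        (∀ i, IsGalois K (E i)) ∧ ∀ i < n, IsCyclicStep (E i) (E (i + 1)) := by
  constructor
  · rintro ⟨n, H, h0, hn, hN, hs⟩
    have hgal : ∀ i, IsGalois K (fixedField (H i)) := fun i => by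
      haveI := hN i
      infer_instance
    refine ⟨n, fun i => fixedField (H (n - i)), ?_, ?_, fun i => hgal _, fun i hi => ?_⟩
    · simp only [Nat.sub_zero, hn]
      exact IsGalois.fixedField_top
    · simp only [Nat.sub_self, h0]
      exact fixedField_bot
    · haveI := hgal (n - (i + 1))
      refine (isCyclicStep_iff _ _).2 ?_
      rw [fixingSubgroup_fixedField, fixingSubgroup_fixedField,
        show n - i = n - (i + 1) + 1 by omega]
      exact hs _ (by omega)
  · rintro ⟨n, E, e0, en, hgal, hs⟩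
    refine ⟨n, fun i => (E (n - i)).fixingSubgroup, ?_, ?_, fun i => ?_, fun i hi => ?_⟩
    · simp [en]
    · simp [e0]
    · haveI := hgal (n - i)
      infer_instance
    · haveI := hgal (n - (i + 1) + 1)
      obtain ⟨σ, hσ⟩ := (isCyclicStep_iff _ _).1 (hs (n - (i + 1)) (by omega))
      exact ⟨σ, by rwa [show n - (i + 1) + 1 = n - i by omega] at hσ⟩

end FA.Supersolvable

end
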