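import Mathlib.GroupTheory.Nilpotent
import Mathlib.GroupTheory.Solvable
import Mathlib.GroupTheory.SpecificGroups.Cyclic

/-!
# Supersolvable groups

A group is supersolvable if it has a finite series of normal subgroups each generated by the
previous one and one further element. The class is closed under subgroups, quotients, products and
cyclic extensions from below; it contains the finite nilpotent groups, its members are solvable and
have nilpotent commutator subgroup.
-/

set_option autoImplicit false
set_option linter.style.haveILetI false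

noncomputable section

open Subgroup
open scoped commutatorElement

namespace FA.Supersolvable

/-- A series of normal subgroups with cyclic factors from the trivial subgroup to the top. -/
def IsSupersolvable (G : Type*) [Group G] : Prop :=
  ∃ (n : ℕ) (H : ℕ → Subgroup G), H 0 = ⊥ ∧ H n = ⊤ ∧ (∀ i, (H i).Normal) ∧
    ∀ i < n, ∃ x : G, H (i + 1) = H i ⊔ zpowers x

variable {G G' : Type*} [Group G] [Group G']

/-- Preimages of cyclic steps are cyclic steps. -/
theorem exists_comap_sup_zpowers (f : G' →* G) {A B : Subgroup G} [A.Normal] {x : G}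
    (hx : B = A ⊔ zpowers x) : ∃ y, B.comap f = A.comap f ⊔ zpowers y := by
  set φ := (QuotientGroup.mk' A).comp f
  have hA : A.map (QuotientGroup.mk' A) = ⊥ :=
    (Subgroup.map_eq_bot_iff _).2 (by rw [QuotientGroup.ker_mk'])
  have hle : (B.comap f).map φ ≤ zpowers (QuotientGroup.mk' A x) := by
    rintro _ ⟨z, hz, rfl⟩
    have h : φ z ∈ B.map (QuotientGroup.mk' A) := ⟨f z, hz, rfl⟩
    rwa [hx, Subgroup.map_sup, hA, bot_sup_eq, MonoidHom.map_zpowers] at h
  haveI := Subgroup.isCyclic_of_le hle
  obtain ⟨w, hw⟩ := IsCyclic.exists_generator (α := (B.comap f).map φ)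
  obtain ⟨y, hy, hyw⟩ := w.2
  refine ⟨y, le_antisymm (fun z hz => ?_)
    (sup_le (comap_mono (hx ▸ le_sup_left)) (zpowers_le.2 hy))⟩
  obtain ⟨j, hj⟩ := hw ⟨φ z, z, hz, rfl⟩
  have hj' : φ y ^ j = φ z := by
    have := congrArg Subtype.val hj
    simpa [hyw] using this
  have hk : z * (y ^ j)⁻¹ ∈ A.comap f := by
    have : φ (z * (y ^ j)⁻¹) = 1 := by rw [map_mul, map_inv, map_zpow, hj', mul_inv_cancel]
    exact (QuotientGroup.eq_one_iff (f (z * (y ^ j)⁻¹))).1 this
  rw [← inv_mul_cancel_right z (y ^ j)]
  exact mul_mem_sup hk (zpow_mem (mem_zpowers y) j)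

/-- Quotients of supersolvable groups are supersolvable. -/
theorem IsSupersolvable.of_surjective (h : IsSupersolvable G) (f : G →* G')
    (hf : Function.Surjective f) : IsSupersolvable G' := by
  obtain ⟨n, H, h0, hn, hN, hs⟩ := h
  refine ⟨n, fun i => (H i).map f, by simp [h0], by simp [hn, map_top_of_surjective f hf],
    fun i => (hN i).map f hf, fun i hi => ?_⟩
  obtain ⟨x, hx⟩ := hs i hi
  exact ⟨f x, by simp only [hx, Subgroup.map_sup, MonoidHom.map_zpowers]⟩

/-- Subgroups of supersolvable groups are supersolvable. -/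
theorem IsSupersolvable.of_injective (h : IsSupersolvable G) (f : G' →* G)
    (hf : Function.Injective f) : IsSupersolvable G' := by
  obtain ⟨n, H, h0, hn, hN, hs⟩ := h
  refine ⟨n, fun i => (H i).comap f, ?_, by simp [hn], fun i => (hN i).comap f, fun i hi => ?_⟩
  · simp only [h0, MonoidHom.comap_bot]
    exact (MonoidHom.ker_eq_bot_iff f).2 hf
  · obtain ⟨x, hx⟩ := hs i hi
    haveI := hN i
    exact exists_comap_sup_zpowers f hx

theorem IsSupersolvable.subgroup (h : IsSupersolvable G) (K : Subgroup G) : IsSupersolvable K :=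
  h.of_injective K.subtype K.subtype_injective

theorem IsSupersolvable.quotient (h : IsSupersolvable G) (N : Subgroup G) [N.Normal] :
    IsSupersolvable (G ⧸ N) :=
  h.of_surjective _ (QuotientGroup.mk'_surjective N)

/-- Gluing a series reaching the kernel with a series of the image. -/
theorem glue {n : ℕ} {H : ℕ → Subgroup G} (h0 : H 0 = ⊥) (hN : ∀ i, (H i).Normal)
    (hs : ∀ i < n, ∃ x : G, H (i + 1) = H i ⊔ zpowers x) (q : G →* G')
    (hker : H n = q.ker) (hG' : IsSupersolvable G') : IsSupersolvable G := by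
  obtain ⟨m, K, k0, km, kN, ks⟩ := hG'
  refine ⟨n + m, fun i => if i ≤ n then H i else (K (i - n)).comap q, ?_, ?_, fun i => ?_,
    fun i hi => ?_⟩
  · simp [h0]
  · by_cases hm : m = 0
    · subst hm
      simp [hker, ← MonoidHom.comap_bot, ← k0, km]
    · simp [show ¬ n + m ≤ n by omega, km]
  · show (if i ≤ n then H i else (K (i - n)).comap q).Normal
    split_ifs
    · exact hN i
    · exact (kN _).comap q
  · simp only
    by_cases hin : i < n
    · rw [if_pos (by omega), if_pos (by omega)]
      exact hs i hin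
    obtain ⟨x, hx⟩ := ks (i - n) (by omega)
    haveI := kN (i - n)
    obtain ⟨y, hy⟩ := exists_comap_sup_zpowers q hx
    refine ⟨y, ?_⟩
    rw [if_neg (by omega), show i + 1 - n = i - n + 1 by omega, hy]
    split_ifs with h1
    · rw [show i = n by omega, Nat.sub_self, k0, MonoidHom.comap_bot, hker]
    · rfl

/-- A cyclic normal subgroup with supersolvable quotient gives a supersolvable group. -/
theorem IsSupersolvable.of_cyclic_normal {N : Subgroup G} [N.Normal] {x : G}
    (hx : N = zpowers x) (h : IsSupersolvable (G ⧸ N)) : IsSupersolvable G :=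
  glue (n := 1) (H := fun i => if i = 0 then ⊥ else N) rfl
    (fun i => by
      show (if i = 0 then ⊥ else N).Normal
      split_ifs <;> infer_instance)
    (fun i hi => ⟨x, by simp [show i = 0 by omega, hx]⟩) (QuotientGroup.mk' N)
    (by simp) h

/-- Cyclic groups are supersolvable. -/
theorem isSupersolvable_of_isCyclic [IsCyclic G] : IsSupersolvable G := by
  obtain ⟨x, hx⟩ := IsCyclic.exists_generator (α := G)
  refine ⟨1, fun i => if i = 0 then ⊥ else ⊤, rfl, rfl, fun i => ?_, fun i hi => ⟨x, ?_⟩⟩
  · show (if i = 0 then ⊥ else ⊤ : Subgroup G).Normal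
    split_ifs <;> infer_instance
  · simp [show i = 0 by omega, (Subgroup.eq_top_iff' _).2 hx]

/-- Products of supersolvable groups are supersolvable. -/
theorem IsSupersolvable.prod (h : IsSupersolvable G) (h' : IsSupersolvable G') :
    IsSupersolvable (G × G') := by
  obtain ⟨n, H, h0, hn, hN, hs⟩ := h
  refine glue (n := n) (H := fun i => (H i).map (MonoidHom.inl G G')) (by simp [h0])
    (fun i => ⟨fun a ha g => ?_⟩) (fun i hi => ?_) (MonoidHom.snd G G') ?_ h'
  · obtain ⟨b, hb, rfl⟩ := ha
    exact ⟨g.1 * b * g.1⁻¹, (hN i).conj_mem b hb g.1, Prod.ext rfl (by simp)⟩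
  · obtain ⟨x, hx⟩ := hs i hi
    exact ⟨MonoidHom.inl G G' x, by simp only [hx, Subgroup.map_sup, MonoidHom.map_zpowers]⟩
  · simp only [hn]
    ext ⟨a, b⟩
    constructor
    · rintro ⟨c, -, hc⟩
      exact MonoidHom.mem_ker.2 (congrArg Prod.snd hc).symm
    · exact fun hb => ⟨a, Subgroup.mem_top a, Prod.ext rfl (MonoidHom.mem_ker.1 hb).symm⟩

/-- **Finite nilpotent groups are supersolvable.** -/
theorem isSupersolvable_of_isNilpotent [Finite G] (hG : Group.IsNilpotent G) :
    IsSupersolvable G := by
  induction hk : Nat.card G using Nat.strong_induction_on generalizing G with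
  | _ k ih =>
    rcases subsingleton_or_nontrivial G with h | h
    · exact isSupersolvable_of_isCyclic
    haveI := hG
    obtain ⟨⟨z, hz⟩, hz1'⟩ :=
      Subgroup.ne_bot_iff_exists_ne_one.1 (Group.IsNilpotent.center_ne_bot (G := G))
    have hz1 : z ≠ 1 := fun h => hz1' (Subtype.ext h)
    haveI : (zpowers z).Normal :=
      ⟨fun a ha g => by
        rw [Subgroup.mem_center_iff.1 (zpowers_le.2 hz ha) g, mul_inv_cancel_right]
        exact ha⟩
    have hlt : Nat.card (G ⧸ zpowers z) < k := by
      rw [← hk, card_eq_card_quotient_mul_card_subgroup (zpowers z)]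
      exact lt_mul_of_one_lt_right Nat.card_pos
        ((one_lt_card_iff_ne_bot _).2 (zpowers_ne_bot.2 hz1))
    exact IsSupersolvable.of_cyclic_normal rfl (ih _ hlt inferInstance rfl)

/-- Conjugations act commutatively on a normal cyclic subgroup. -/
theorem conj_comm_of_cyclic {x : G} [(zpowers x).Normal] (g h : G) {z : G} (hz : z ∈ zpowers x) :
    g * h * z * (g * h)⁻¹ = h * g * z * (h * g)⁻¹ := by
  have hc : ∀ a : G, ∃ i : ℤ, x ^ i = a * x * a⁻¹ := fun a =>
    mem_zpowers_iff.1 (Subgroup.Normal.conj_mem ‹_› x (mem_zpowers x) a)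
  obtain ⟨i, hi⟩ := hc g
  obtain ⟨j, hj⟩ := hc h
  obtain ⟨m, rfl⟩ := hz
  have hg : ∀ e : ℤ, g * x ^ e * g⁻¹ = x ^ (i * e) := fun e => by rw [← conj_zpow, ← hi, zpow_mul]
  have hh : ∀ e : ℤ, h * x ^ e * h⁻¹ = x ^ (j * e) := fun e => by rw [← conj_zpow, ← hj, zpow_mul]
  show g * h * x ^ m * (g * h)⁻¹ = h * g * x ^ m * (h * g)⁻¹
  calc g * h * x ^ m * (g * h)⁻¹ = g * (h * x ^ m * h⁻¹) * g⁻¹ := by group
    _ = x ^ (i * (j * m)) := by rw [hh, hg]
    _ = x ^ (j * (i * m)) := by rw [mul_left_comm]
    _ = h * (g * x ^ m * g⁻¹) * h⁻¹ := by rw [hg, hh]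
    _ = _ := by group

/-- The commutator subgroup centralises a normal cyclic subgroup. -/
theorem commute_commutator_of_cyclic {x : G} [(zpowers x).Normal] {c : G} (hc : c ∈ commutator G)
    {z : G} (hz : z ∈ zpowers x) : c * z = z * c := by
  have hle : commutator G ≤ centralizer (zpowers x : Set G) := by
    rw [commutator_def, commutator_le]
    intro g _ h _ z hz
    have hw : g⁻¹ * h⁻¹ * z * (g⁻¹ * h⁻¹)⁻¹ ∈ zpowers x :=
      Subgroup.Normal.conj_mem ‹_› z hz _
    have h1 := conj_comm_of_cyclic g h hw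
    rw [commutatorElement_def]
    calc z * (g * h * g⁻¹ * h⁻¹)
        = h * g * (g⁻¹ * h⁻¹ * z * (g⁻¹ * h⁻¹)⁻¹) * (h * g)⁻¹ * (g * h * g⁻¹ * h⁻¹) := by group
      _ = g * h * (g⁻¹ * h⁻¹ * z * (g⁻¹ * h⁻¹)⁻¹) * (g * h)⁻¹ * (g * h * g⁻¹ * h⁻¹) := by rw [h1]
      _ = g * h * g⁻¹ * h⁻¹ * z := by group
  exact (mem_centralizer_iff.1 (hle hc) z hz).symm

/-- In a step of the series the commutator subgroup acts trivially modulo the previous term. -/
theorem commutatorElement_mem_of_step {A B : Subgroup G} [A.Normal] [B.Normal] {x : G}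
    (hx : B = A ⊔ zpowers x) {b c : G} (hb : b ∈ B) (hc : c ∈ commutator G) : ⁅b, c⁆ ∈ A := by
  set π := QuotientGroup.mk' A
  have hB : B.map π = zpowers (π x) := by
    rw [hx, Subgroup.map_sup, (Subgroup.map_eq_bot_iff _).2 (QuotientGroup.ker_mk' A).ge,
      bot_sup_eq, MonoidHom.map_zpowers]
  haveI : (zpowers (π x)).Normal := hB ▸ Subgroup.Normal.map ‹_› π (QuotientGroup.mk'_surjective A)
  have hcc : π c ∈ commutator (G ⧸ A) := by
    have h : π c ∈ (commutator G).map π := ⟨c, hc, rfl⟩
    rwa [commutator_def, Subgroup.map_commutator,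
      Subgroup.map_top_of_surjective π (QuotientGroup.mk'_surjective A), ← commutator_def] at h
  rw [← QuotientGroup.eq_one_iff, ← QuotientGroup.mk'_apply, map_commutatorElement]
  exact commutatorElement_eq_one_iff_mul_comm.2
    (commute_commutator_of_cyclic hcc
      (show π b ∈ zpowers (π x) by rw [← hB]; exact ⟨b, hb, rfl⟩)).symm

/-- **The commutator subgroup of a supersolvable group is nilpotent.** -/
theorem IsSupersolvable.isNilpotent_commutator (h : IsSupersolvable G) :
    Group.IsNilpotent (commutator G) := by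
  obtain ⟨n, H, h0, hn, hN, hs⟩ := h
  refine (Subgroup.nilpotent_iff_finite_ascending_central_series _).2
    ⟨n, fun i => (H (min i n)).subgroupOf (commutator G), ⟨by simp [h0], fun x i hx g => ?_⟩,
      by simp [hn]⟩
  simp only [Subgroup.mem_subgroupOf] at hx ⊢
  by_cases hin : i < n
  · rw [Nat.min_eq_left (by omega : i + 1 ≤ n)] at hx
    rw [Nat.min_eq_left (by omega : i ≤ n)]
    obtain ⟨y, hy⟩ := hs i hin
    haveI := hN i
    haveI := hN (i + 1)
    exact commutatorElement_mem_of_step hy hx g.2
  · rw [Nat.min_eq_right (by omega : n ≤ i), hn]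
    exact Subgroup.mem_top _

/-- **Supersolvable groups are solvable.** -/
theorem IsSupersolvable.isSolvable (h : IsSupersolvable G) : Group.IsSolvable G := by
  haveI := h.isNilpotent_commutator
  exact Group.isSolvable_of_ker_le_range (commutator G).subtype Abelianization.of
    (by rw [Subgroup.range_subtype, Abelianization.ker_of])

end FA.Supersolvable

end
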