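import Fermat.Agent.Supersolvable.Structure
import Fermat.Agent.FrobeniusComplements.PGroups
import Mathlib.GroupTheory.SchurZassenhaus
import Mathlib.FieldTheory.Finite.Basic
import Mathlib.Algebra.Module.ZMod

/-!
# Huppert's theorem

A finite group all of whose maximal subgroups have prime index is supersolvable. With `P` the
Sylow subgroup for the largest prime and `N ≤ P` minimal normal inside every maximal subgroup, a
complement `H` of `P` acts on `N` through an abelian group of exponent dividing `p - 1`, hence by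
scalars, and `N` is cyclic.
-/

set_option autoImplicit false
set_option linter.style.haveILetI false

noncomputable section

open Subgroup
open scoped commutatorElement

namespace FA.Supersolvable

/-- An endomorphism of exponent dividing `p - 1` of an elementary abelian `p`-group has an
eigenvector. -/
theorem exists_pow_eigen {p : ℕ} [hp : Fact p.Prime] {N : Type*} [CommGroup N] [Nontrivial N]
    (hexp : ∀ z : N, z ^ p = 1) (φ : N →* N) (hφ : ∀ z, φ^[p - 1] z = z) :
    ∃ (v : N) (k : ℕ), v ≠ 1 ∧ φ v = v ^ k := by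
  haveI : Module (ZMod p) (Additive N) :=
    AddCommGroup.zmodModule fun z => congrArg Additive.ofMul (hexp z.toMul)
  set f : Additive N →ₗ[ZMod p] Additive N := φ.toAdditive.toZModLinearMap p
  have hpow : f ^ (p - 1) = 1 := LinearMap.ext fun z => by
    rw [Module.End.pow_apply, Module.End.one_apply]
    exact congrArg Additive.ofMul (hφ z.toMul)
  have hf : Polynomial.aeval f
      ((Polynomial.X : Polynomial (ZMod p)) ^ p - Polynomial.X) = 0 := by
    rw [map_sub, map_pow, Polynomial.aeval_X,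
      ← mul_pow_sub_one hp.out.ne_zero, hpow, mul_one, sub_self]
  have hprod : ((Polynomial.X : Polynomial (ZMod p)) ^ p - Polynomial.X) =
      (Finset.univ.val.map fun a => Polynomial.X - Polynomial.C a).prod := by
    have hroots : ((Polynomial.X : Polynomial (ZMod p)) ^ p - Polynomial.X).roots =
        Finset.univ.val := by
      have := FiniteField.roots_X_pow_card_sub_X (ZMod p)
      rwa [ZMod.card] at this
    rw [← hroots]
    refine (Polynomial.prod_multiset_X_sub_C_of_monic_of_roots_card_eq ?_ ?_).symm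
    · exact Polynomial.monic_X_pow_sub (by
        rw [Polynomial.degree_X]
        exact_mod_cast hp.out.one_lt)
    · rw [hroots, FiniteField.X_pow_card_sub_X_natDegree_eq _ hp.out.one_lt,
        Finset.card_val, Finset.card_univ, ZMod.card]
  obtain ⟨a, ha⟩ : ∃ a : ZMod p, ¬ Function.Injective
      (Polynomial.aeval f (Polynomial.X - Polynomial.C a)) := by
    by_contra! hall
    have hinj : ∀ s : Multiset (ZMod p), Function.Injective
        (Polynomial.aeval f (s.map fun a => Polynomial.X - Polynomial.C a).prod) := fun s => by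
      induction s using Multiset.induction with
      | empty =>
        rw [Multiset.map_zero, Multiset.prod_zero, map_one, Module.End.coe_one]
        exact Function.injective_id
      | cons a s ih =>
        rw [Multiset.map_cons, Multiset.prod_cons, map_mul, Module.End.coe_mul]
        exact (hall a).comp ih
    have h := hinj Finset.univ.val
    rw [← hprod, hf] at h
    obtain ⟨z, hz⟩ := exists_ne (0 : Additive N)
    exact hz (h (a₁ := z) (a₂ := 0) rfl)
  obtain ⟨v, hv, hv0⟩ : ∃ v, Polynomial.aeval f (Polynomial.X - Polynomial.C a) v = 0 ∧ v ≠ 0 := by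
    by_contra! hall
    exact ha ((injective_iff_map_eq_zero _).2 hall)
  refine ⟨Additive.toMul v, a.val, fun h => hv0 (Additive.toMul.injective h), ?_⟩
  rw [map_sub, Polynomial.aeval_X, Polynomial.aeval_C, LinearMap.sub_apply, sub_eq_zero,
    Module.algebraMap_end_apply, ← ZMod.natCast_zmod_val a, Nat.cast_smul_eq_nsmul] at hv
  exact congrArg Additive.toMul hv

variable {G : Type*} [Group G]

/-- A `(p - 1)`-th power of an element of order prime to `p` centralises the `p`-elements of a
normal cyclic subgroup. -/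
theorem commute_pow_of_cyclic {x : G} [(zpowers x).Normal] {p : ℕ} [hp : Fact p.Prime]
    {z : G} (hz : z ∈ zpowers x) {j : ℕ} (hzj : z ^ p ^ j = 1) {a : G} {m : ℕ}
    (hm : ¬ p ∣ m) (ha : a ^ m = 1) : a ^ (p - 1) * z = z * a ^ (p - 1) := by
  obtain ⟨c, hc⟩ := mem_zpowers_iff.1 (Subgroup.Normal.conj_mem ‹_› x (mem_zpowers x) a)
  obtain ⟨e, rfl⟩ := mem_zpowers_iff.1 hz
  have hconj : a * x ^ e * a⁻¹ = (x ^ e) ^ c := by
    rw [← conj_zpow, ← hc, ← zpow_mul, ← zpow_mul, mul_comm]
  have hpow : ∀ n : ℕ, a ^ n * x ^ e * (a ^ n)⁻¹ = (x ^ e) ^ (c ^ n) := fun n => by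
    induction n with
    | zero => simp
    | succ n ih =>
      rw [pow_succ' a, mul_inv_rev, show a * a ^ n * x ^ e * ((a ^ n)⁻¹ * a⁻¹) =
        a * (a ^ n * x ^ e * (a ^ n)⁻¹) * a⁻¹ by group, ih, ← conj_zpow, hconj, ← zpow_mul,
        pow_succ']
  obtain ⟨j', -, hj'⟩ := (Nat.dvd_prime_pow hp.out).1 (orderOf_dvd_of_pow_eq_one hzj)
  have hcm : ((c : ZMod (orderOf (x ^ e))) ^ m) = 1 := by
    rw [← Int.cast_pow, ← Int.cast_one, ZMod.intCast_eq_intCast_iff, ← zpow_eq_zpow_iff_modEq,
      zpow_one, ← hpow, ha, one_mul, inv_one, mul_one]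
  have hm0 : m ≠ 0 := fun h => hm (h ▸ dvd_zero p)
  obtain ⟨u, hu⟩ : IsUnit (c : ZMod (orderOf (x ^ e))) :=
    (isUnit_pow_iff hm0).1 (hcm.symm ▸ isUnit_one)
  have hord : orderOf u ∣ p - 1 := by
    have hd1 : orderOf u ∣ m := orderOf_dvd_of_pow_eq_one (Units.ext (by
      rw [Units.val_pow_eq_pow_val, hu, hcm, Units.val_one]))
    haveI : NeZero (orderOf (x ^ e)) := ⟨hj' ▸ pow_ne_zero _ hp.out.ne_zero⟩
    have hd2 := orderOf_dvd_card (x := u)
    rw [ZMod.card_units_eq_totient] at hd2
    have hcop : (orderOf u).Coprime p :=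
      Nat.Coprime.coprime_dvd_left hd1 ((hp.out.coprime_iff_not_dvd.2 hm).symm)
    rcases j' with _ | i
    · rw [show (orderOf (x ^ e)).totient = 1 by rw [hj', pow_zero, Nat.totient_one]] at hd2
      exact hd2.trans (one_dvd _)
    · rw [show (orderOf (x ^ e)).totient = p ^ i * (p - 1) by
        rw [hj', Nat.totient_prime_pow_succ hp.out]] at hd2
      exact (hcop.pow_right i).dvd_of_dvd_mul_left hd2
  have hc1 : ((c : ZMod (orderOf (x ^ e))) ^ (p - 1)) = 1 := by
    rw [← hu, ← Units.val_pow_eq_pow_val, orderOf_dvd_iff_pow_eq_one.1 hord, Units.val_one]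
  rw [← Int.cast_pow, ← Int.cast_one, ZMod.intCast_eq_intCast_iff, ← zpow_eq_zpow_iff_modEq,
    zpow_one, ← hpow] at hc1
  exact mul_inv_eq_iff_eq_mul.1 hc1

/-- In a supersolvable group such elements centralise every normal `p`-subgroup. -/
theorem commute_of_supersolvable (h : IsSupersolvable G) {p : ℕ} [hp : Fact p.Prime]
    (P : Subgroup G) [P.Normal] (hP : IsPGroup p P) {t : G} {m : ℕ} (hm : ¬ p ∣ m)
    (htm : t ^ m = 1)
    (ht : t ∈ commutator G ∨ ∃ a : G, a ^ m = 1 ∧ t = a ^ (p - 1)) :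
    ∀ x ∈ P, t * x = x * t := by
  obtain ⟨n, H, h0, hn, hH, hs⟩ := h
  suffices key : ∀ i ≤ n, ∀ x ∈ P, x ∈ H i → t * x = x * t from
    fun x hx => key n le_rfl x hx (hn.symm ▸ Subgroup.mem_top x)
  intro i hi
  induction i with
  | zero =>
    intro x _ hx
    rw [h0, Subgroup.mem_bot] at hx
    rw [hx, mul_one, one_mul]
  | succ i ih =>
    intro x hxP hx
    haveI := hH i
    haveI := hH (i + 1)
    obtain ⟨y, hy⟩ := hs i (by omega)
    set d := t * x * t⁻¹ * x⁻¹ with hd
    have hdP : d ∈ P := P.mul_mem (‹P.Normal›.conj_mem x hxP t) (P.inv_mem hxP)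
    have hdi : d ∈ H i := by
      rcases ht with ht | ⟨a, ha, rfl⟩
      · have := (H i).inv_mem (commutatorElement_mem_of_step hy hx ht)
        rwa [commutatorElement_inv] at this
      set π := QuotientGroup.mk' (H i)
      have hB : (H (i + 1)).map π = zpowers (π y) := by
        rw [hy, Subgroup.map_sup, (Subgroup.map_eq_bot_iff _).2 (QuotientGroup.ker_mk' (H i)).ge,
          bot_sup_eq, MonoidHom.map_zpowers]
      haveI : (zpowers (π y)).Normal :=
        hB ▸ Subgroup.Normal.map ‹_› π (QuotientGroup.mk'_surjective _)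
      obtain ⟨j, hj⟩ := hP ⟨x, hxP⟩
      have hj' : π x ^ p ^ j = 1 := by
        rw [← map_pow, show x ^ p ^ j = 1 from congrArg Subtype.val hj, map_one]
      have hc := commute_pow_of_cyclic (x := π y) (a := π a)
        (show π x ∈ zpowers (π y) by rw [← hB]; exact ⟨x, hx, rfl⟩) hj' hm
        (by rw [← map_pow, ha, map_one])
      rw [← QuotientGroup.eq_one_iff, hd, ← QuotientGroup.mk'_apply, map_mul, map_mul, map_mul,
        map_inv, map_inv, map_pow, hc, mul_inv_cancel_right, mul_inv_cancel]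
    have hdt := ih (by omega) d hdP hdi
    have hk : ∀ k : ℕ, t ^ k * x = d ^ k * x * t ^ k := fun k => by
      induction k with
      | zero => simp
      | succ k ih' =>
        calc t ^ (k + 1) * x = t * (t ^ k * x) := by rw [pow_succ', mul_assoc]
          _ = t * d ^ k * (x * t ^ k) := by rw [ih']; simp only [mul_assoc]
          _ = d ^ k * (t * x) * t ^ k := by
            rw [(show Commute t d from hdt).pow_right k]; simp only [mul_assoc]
          _ = d ^ k * (d * x * t) * t ^ k := by rw [hd]; group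
          _ = d ^ (k + 1) * x * t ^ (k + 1) := by
            rw [pow_succ, pow_succ' t]; simp only [mul_assoc]
    have hdm : d ^ m = 1 := by
      have := hk m
      rw [htm, one_mul, mul_one] at this
      exact right_eq_mul.1 this
    obtain ⟨j, hj⟩ := hP ⟨d, hdP⟩
    have hd1 : d = 1 := orderOf_eq_one_iff.1 (Nat.eq_one_of_dvd_coprimes
      (Nat.Coprime.pow_left j ((hp.out.coprime_iff_not_dvd).2 hm))
      (orderOf_dvd_of_pow_eq_one (congrArg Subtype.val hj : d ^ p ^ j = 1))
      (orderOf_dvd_of_pow_eq_one hdm))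
    rw [hd, mul_inv_eq_one, mul_inv_eq_iff_eq_mul] at hd1
    exact hd1

/-- Prime maximal indices pass to quotients. -/
theorem HasPrimeIndices.quotient (h : HasPrimeIndices G) (N : Subgroup G) [N.Normal] :
    HasPrimeIndices (G ⧸ N) := fun M hM => by
  have h' := h _ (isCoatom_comap_of_surjective (QuotientGroup.mk'_surjective N) hM)
  rwa [Subgroup.index_comap_of_surjective _ (QuotientGroup.mk'_surjective N)] at h'

variable [Finite G]

/-- The key step: a minimal normal subgroup inside a normal Sylow subgroup and inside every maximal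
subgroup is cyclic if the quotient by it is supersolvable. -/
theorem isCyclic_of_le_coatoms {p : ℕ} [hp : Fact p.Prime] (P : Sylow p G)
    [(P : Subgroup G).Normal] {N : Subgroup G} [hNn : N.Normal] (hN : IsMinimalNormal N)
    (hNP : N ≤ P) (hall : ∀ M : Subgroup G, IsCoatom M → N ≤ M)
    (hQ : IsSupersolvable (G ⧸ N)) : ∃ v : G, N = zpowers v := by
  obtain ⟨hN0, -, hmin⟩ := hN
  -- `P` centralises `N`
  have hPN : ∀ x ∈ (P : Subgroup G), ∀ z ∈ N, x * z = z * x := by
    set Z := N ⊓ centralizer ((P : Subgroup G) : Set G)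
    have hZ : Z.Normal := inferInstance
    rcases hmin Z hZ inf_le_left with h | h
    · exfalso
      obtain ⟨z, hz, hz1, hzc⟩ := FA.FrobeniusComplements.exists_mem_center_of_normal P.2
        (N.subgroupOf (P : Subgroup G)) fun hb => hN0 (eq_bot_iff.2 fun z hz => by
          have : (⟨z, hNP hz⟩ : (P : Subgroup G)) ∈ N.subgroupOf (P : Subgroup G) := hz
          rw [hb, Subgroup.mem_bot] at this
          exact congrArg Subtype.val this)
      have : (z : G) ∈ Z := ⟨hz, mem_centralizer_iff.2 fun x hx =>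
        congrArg Subtype.val (mem_center_iff.1 hzc ⟨x, hx⟩)⟩
      rw [h, Subgroup.mem_bot] at this
      exact hz1 (Subtype.ext this)
    · exact fun x hx z hz => mem_centralizer_iff.1 ((h.symm ▸ hz : z ∈ Z)).2 x hx
  letI : CommGroup N :=
    { (inferInstance : Group N) with
      mul_comm := fun a b => Subtype.ext (hPN a (hNP a.2) b b.2) }
  -- exponent `p`
  have hexp : ∀ z : N, z ^ p = 1 := by
    let K : Subgroup G := (powMonoidHom p : N →* N).ker.map N.subtype
    have hK : K.Normal := ⟨fun z hz g => by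
      obtain ⟨w, hw, rfl⟩ := hz
      refine ⟨⟨g * w * g⁻¹, hNn.conj_mem w w.2 g⟩, MonoidHom.mem_ker.2 (Subtype.ext ?_), rfl⟩
      have hw' : ((w : G)) ^ p = 1 := congrArg Subtype.val (MonoidHom.mem_ker.1 hw)
      show (g * w * g⁻¹) ^ p = 1
      rw [conj_pow, hw', mul_one, mul_inv_cancel]⟩
    rcases hmin K hK (map_subtype_le _) with h | h
    · exfalso
      obtain ⟨k, hk⟩ := IsPGroup.iff_card.1 (P.2.to_le hNP)
      obtain ⟨w, hw⟩ := exists_prime_orderOf_dvd_card' (G := N) p (hk ▸ dvd_pow_self p fun h0 =>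
        hN0 (card_eq_one.1 (by rw [hk, h0, pow_zero])))
      have : (w : G) ∈ K := ⟨w, MonoidHom.mem_ker.2
        (by rw [powMonoidHom_apply, ← hw, pow_orderOf_eq_one]), rfl⟩
      rw [h, Subgroup.mem_bot] at this
      rw [show w = 1 from Subtype.ext this, orderOf_one] at hw
      exact hp.out.one_lt.ne hw
    · intro z
      obtain ⟨w, hw, hwz⟩ : (z : G) ∈ K := h.symm ▸ z.2
      rw [← Subtype.ext hwz]
      exact MonoidHom.mem_ker.1 hw
  obtain ⟨H, hH⟩ := exists_right_complement'_of_coprime P.card_coprime_index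
  have hHm : ¬ p ∣ Nat.card H := by
    rw [← hH.symm.index_eq_card]
    exact P.not_dvd_index
  set π := QuotientGroup.mk' N
  set Pbar := (P : Subgroup G).map π
  haveI : Pbar.Normal := Subgroup.Normal.map ‹_› π (QuotientGroup.mk'_surjective N)
  set T := H ⊓ (centralizer (Pbar : Set (G ⧸ N))).comap π
  have hTH : ∀ h ∈ H, ∀ s ∈ T, h * s * h⁻¹ ∈ T := fun h hh s hs =>
    ⟨H.mul_mem (H.mul_mem hh hs.1) (H.inv_mem hh),
      (inferInstance : ((centralizer (Pbar : Set (G ⧸ N))).comap π).Normal).conj_mem s hs.2 h⟩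
  set C := (P : Subgroup G) ⊓ centralizer (T : Set G)
  -- coprime lifting
  have hlift : ∀ x ∈ (P : Subgroup G), ∃ n ∈ N, n * x ∈ C := fun x hx => by
    haveI := Fintype.ofFinite T
    have hd : ∀ s : T, (s : G) * x * (s : G)⁻¹ * x⁻¹ ∈ N := fun s => by
      refine (QuotientGroup.eq_one_iff _).1 ?_
      have h := mem_centralizer_iff.1 s.2.2 (π x) ⟨x, hx, rfl⟩
      show π _ = 1
      rw [map_mul, map_mul, map_mul, map_inv, map_inv, ← h, mul_inv_cancel_right, mul_inv_cancel]
    set d : T → N := fun s => ⟨_, hd s⟩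
    set n0 : N := ∏ s, d s
    set u : ℕ := ((Nat.card T : ZMod p)⁻¹).val
    have hu : ∀ z : N, z ^ (Nat.card T * u) = z := fun z => by
      have hne : (Nat.card T : ZMod p) ≠ 0 := fun h =>
        hHm (((CharP.cast_eq_zero_iff (ZMod p) p _).1 h).trans (card_dvd_of_le inf_le_left))
      have h1 : Nat.card T * u ≡ 1 [MOD p] := by
        rw [← ZMod.natCast_eq_natCast_iff, Nat.cast_mul, ZMod.natCast_zmod_val,
          mul_inv_cancel₀ hne, Nat.cast_one]
      conv_rhs => rw [← pow_one z]
      exact (pow_eq_pow_iff_modEq).2 (h1.of_dvd (orderOf_dvd_of_pow_eq_one (hexp z)))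
    refine ⟨((n0 ^ u : N) : G), (n0 ^ u).2,
      (P : Subgroup G).mul_mem (hNP (n0 ^ u).2) hx, mem_centralizer_iff.2 fun s hs => ?_⟩
    let c : N →* N := (MulAut.conjNormal s).toMonoidHom
    have hc : c n0 * d ⟨s, hs⟩ ^ Nat.card T = n0 := by
      rw [map_prod, Nat.card_eq_fintype_card, ← Finset.card_univ, ← Finset.prod_const,
        ← Finset.prod_mul_distrib]
      refine Fintype.prod_equiv (Equiv.mulLeft ⟨s, hs⟩) _ _ fun r => Subtype.ext ?_
      show s * (r * x * (r : G)⁻¹ * x⁻¹) * s⁻¹ * (s * x * s⁻¹ * x⁻¹) =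
        s * r * x * (s * (r : G))⁻¹ * x⁻¹
      group
    have hcu : c (n0 ^ u) * d ⟨s, hs⟩ = n0 ^ u := by
      rw [map_pow]
      conv_rhs => rw [← hc, mul_pow, ← pow_mul, hu]
    have hcu' := congrArg Subtype.val hcu
    change s * ((n0 ^ u : N) : G) * s⁻¹ * (s * x * s⁻¹ * x⁻¹) = ((n0 ^ u : N) : G) at hcu'
    calc s * (((n0 ^ u : N) : G) * x)
        = s * ((n0 ^ u : N) : G) * s⁻¹ * (s * x * s⁻¹ * x⁻¹) * (x * s) := by group
      _ = ((n0 ^ u : N) : G) * x * s := by rw [hcu', mul_assoc]
  have hCH : C ⊔ H = ⊤ := by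
    by_contra hne
    obtain ⟨M, hM, hle⟩ := (eq_top_or_exists_le_coatom _).resolve_left hne
    refine hM.1 (top_le_iff.1 (hH.sup_eq_top ▸ sup_le ?_ (le_sup_right.trans hle)))
    intro x hx
    obtain ⟨n, hn, hnx⟩ := hlift x hx
    rw [← inv_mul_cancel_left n x]
    exact M.mul_mem (M.inv_mem (hall M hM hn)) (hle (mem_sup_left hnx))
  have hTN : ∀ s ∈ T, ∀ z ∈ N, s * z = z * s := fun s hs z hz => by
    have hnorm : ∀ h ∈ H, ∀ c ∈ C, h * c * h⁻¹ ∈ C := fun h hh c hc =>
      ⟨‹(P : Subgroup G).Normal›.conj_mem c hc.1 h, mem_centralizer_iff.2 fun r hr => by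
        have h1 := mem_centralizer_iff.1 hc.2 _
          (show h⁻¹ * r * h⁻¹⁻¹ ∈ T from hTH _ (H.inv_mem hh) r hr)
        calc r * (h * c * h⁻¹) = h * (h⁻¹ * r * h⁻¹⁻¹ * c) * h⁻¹ := by group
          _ = h * c * h⁻¹ * r := by rw [h1]; group⟩
    have hHC : H ≤ normalizer (C : Set G) := fun h hh => mem_normalizer_iff.2 fun c =>
      ⟨hnorm h hh c, fun hc => by
        have := hnorm h⁻¹ (H.inv_mem hh) _ hc
        rwa [show h⁻¹ * (h * c * h⁻¹) * h⁻¹⁻¹ = c by group] at this⟩
    have hz' : z ∈ ((C ⊔ H : Subgroup G) : Set G) := hCH.symm ▸ Subgroup.mem_top z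
    rw [coe_mul_of_right_le_normalizer_left C H hHC] at hz'
    obtain ⟨c, hc, h, hh, rfl⟩ := hz'
    have h1 : h = 1 := Subgroup.mem_bot.1 (hH.disjoint.le_bot
      ⟨show h ∈ (P : Subgroup G) from
        inv_mul_cancel_left c h ▸ (P : Subgroup G).mul_mem ((P : Subgroup G).inv_mem hc.1) (hNP hz),
        hh⟩)
    subst h1
    simpa using mem_centralizer_iff.1 hc.2 s hs
  have hbar : ∀ t ∈ H, (π t ∈ commutator (G ⧸ N) ∨ ∃ a ∈ H, t = a ^ (p - 1)) → t ∈ T := by
    intro t ht hcase
    refine ⟨ht, mem_centralizer_iff.2 fun y hy => ?_⟩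
    have hm : ∀ a ∈ H, π a ^ Nat.card H = 1 := fun a ha => by
      rw [← map_pow, show a ^ Nat.card H = 1 from
        congrArg Subtype.val (pow_card_eq_one' (x := (⟨a, ha⟩ : H))), map_one]
    refine (commute_of_supersolvable hQ Pbar (P.2.map π) hHm (hm t ht) ?_ y hy).symm
    rcases hcase with h | ⟨a, ha, rfl⟩
    · exact Or.inl h
    · exact Or.inr ⟨π a, hm a ha, map_pow π a (p - 1)⟩
  have hcomm : ∀ a ∈ H, ∀ b ∈ H, ⁅a, b⁆ ∈ T := fun a ha b hb =>
    hbar _ (by
      rw [commutatorElement_def]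
      exact H.mul_mem (H.mul_mem (H.mul_mem ha hb) (H.inv_mem ha)) (H.inv_mem hb))
      (Or.inl (by
        rw [map_commutatorElement, _root_.commutator_def]
        exact commutator_mem_commutator (Subgroup.mem_top _) (Subgroup.mem_top _)))
  have hswap : ∀ a ∈ H, ∀ b ∈ H, ∀ z ∈ N, a * (b * z * b⁻¹) * a⁻¹ = b * (a * z * a⁻¹) * b⁻¹ := by
    intro a ha b hb z hz
    have h1 := hTN _ (hcomm a ha b hb) (b * (a * z * a⁻¹) * b⁻¹)
      (hNn.conj_mem _ (hNn.conj_mem z hz a) b)
    rw [commutatorElement_def] at h1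
    calc a * (b * z * b⁻¹) * a⁻¹
        = a * b * a⁻¹ * b⁻¹ * (b * (a * z * a⁻¹) * b⁻¹) * (b * a * b⁻¹ * a⁻¹) := by group
      _ = b * (a * z * a⁻¹) * b⁻¹ := by rw [h1]; group
  haveI : Nontrivial N := (nontrivial_iff_ne_bot N).2 hN0
  -- every element of `H` acts on `N` as a power map
  have hscal : ∀ a ∈ H, ∃ k : ℕ, ∀ z ∈ N, a * z * a⁻¹ = z ^ k := fun a ha => by
    let φ : N →* N := (MulAut.conjNormal a).toMonoidHom
    have hit : ∀ (k : ℕ) (z : N), ((φ^[k] z : N) : G) = a ^ k * z * (a ^ k)⁻¹ := fun k z => by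
      induction k with
      | zero => simp
      | succ k ih =>
        rw [Function.iterate_succ_apply']
        show a * ((φ^[k] z : N) : G) * a⁻¹ = _
        rw [ih, pow_succ']
        group
    obtain ⟨v, k, hv1, hv⟩ := exists_pow_eigen hexp φ fun z => Subtype.ext (by
      rw [hit, hTN _ (hbar _ (H.pow_mem ha _) (Or.inr ⟨a, ha, rfl⟩)) z z.2, mul_inv_cancel_right])
    let E : Subgroup G :=
      (MonoidHom.eqLocus φ (powMonoidHom k : N →* N)).map N.subtype
    have hEN : E = N := by
      refine (hmin E ⟨fun z hz g => ?_⟩ (map_subtype_le _)).resolve_left fun hb => hv1 ?_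
      · obtain ⟨w, hw, rfl⟩ := hz
        have hw' : a * (w : G) * a⁻¹ = (w : G) ^ k := congrArg Subtype.val hw
        refine ⟨⟨g * w * g⁻¹, hNn.conj_mem w w.2 g⟩, Subtype.ext ?_, rfl⟩
        show a * (g * w * g⁻¹) * a⁻¹ = (g * w * g⁻¹) ^ k
        have hg : g ∈ (((P : Subgroup G) ⊔ H : Subgroup G) : Set G) :=
          hH.sup_eq_top.symm ▸ Subgroup.mem_top g
        rw [Subgroup.normal_mul] at hg
        obtain ⟨x, hx, h, hh, rfl⟩ := hg
        have hfix : ∀ y ∈ N, x * y * x⁻¹ = y := fun y hy => by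
          rw [hPN x hx y hy, mul_inv_cancel_right]
        show a * (x * h * w * (x * h)⁻¹) * a⁻¹ = (x * h * w * (x * h)⁻¹) ^ k
        rw [show x * h * w * (x * h)⁻¹ = x * (h * w * h⁻¹) * x⁻¹ by group,
          hfix _ (hNn.conj_mem _ w.2 h), hswap a ha h hh w w.2, hw', conj_pow]
      · have : (v : G) ∈ E := ⟨v, hv, rfl⟩
        rw [hb, Subgroup.mem_bot] at this
        exact Subtype.ext this
    refine ⟨k, fun z hz => ?_⟩
    obtain ⟨w, hw, rfl⟩ : z ∈ E := hEN.symm ▸ hz
    exact congrArg Subtype.val hw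
  obtain ⟨v, hv⟩ := exists_ne (1 : N)
  refine ⟨v, ((hmin (zpowers (v : G)) ⟨fun z hz g => ?_⟩ (zpowers_le.2 v.2)).resolve_left
    fun hb => hv (Subtype.ext (zpowers_eq_bot.1 hb))).symm⟩
  have hg : g ∈ (((P : Subgroup G) ⊔ H : Subgroup G) : Set G) :=
    hH.sup_eq_top.symm ▸ Subgroup.mem_top g
  rw [Subgroup.normal_mul] at hg
  obtain ⟨x, hx, h, hh, rfl⟩ := hg
  obtain ⟨k, hk⟩ := hscal h hh
  have hzN : z ∈ N := zpowers_le.2 v.2 hz
  show x * h * z * (x * h)⁻¹ ∈ zpowers (v : G)
  rw [show x * h * z * (x * h)⁻¹ = x * (h * z * h⁻¹) * x⁻¹ by group,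
    hPN x hx _ (hNn.conj_mem z hzN h), mul_inv_cancel_right, hk z hzN]
  exact pow_mem hz k

/-- **Huppert's theorem.** -/
theorem isSupersolvable_of_hasPrimeIndices (h : HasPrimeIndices G) : IsSupersolvable G := by
  induction hk : Nat.card G using Nat.strong_induction_on generalizing G with
  | _ k ih =>
    rcases subsingleton_or_nontrivial G with hs | hs
    · exact isSupersolvable_of_isCyclic
    have hne : (Nat.card G).primeFactors.Nonempty :=
      Nat.nonempty_primeFactors.2 Finite.one_lt_card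
    set p := (Nat.card G).primeFactors.max' hne
    have hp := Nat.mem_primeFactors.1 (Finset.max'_mem _ hne)
    haveI := Fact.mk hp.1
    obtain ⟨P⟩ : Nonempty (Sylow p G) := inferInstance
    haveI := h.sylow_normal (fun q hq hd => Finset.le_max' _ _
      (Nat.mem_primeFactors.2 ⟨hq, hd, Nat.card_pos.ne'⟩)) P
    obtain ⟨N, hNP, hN⟩ := exists_minimalNormal (P.ne_bot_of_dvd_card hp.2.1)
    haveI := hN.2.1
    have hlt : Nat.card (G ⧸ N) < k := by
      rw [← hk, card_eq_card_quotient_mul_card_subgroup N]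
      exact lt_mul_of_one_lt_right Nat.card_pos ((one_lt_card_iff_ne_bot _).2 hN.1)
    have hQ := ih _ hlt (h.quotient N) rfl
    suffices ∃ v, N = zpowers v by
      obtain ⟨v, hv⟩ := this
      exact IsSupersolvable.of_cyclic_normal hv hQ
    by_cases hall : ∀ M : Subgroup G, IsCoatom M → N ≤ M
    · exact isCyclic_of_le_coatoms P hN hNP hall hQ
    push Not at hall
    obtain ⟨M, hM, hNM⟩ := hall
    have hsup : M ⊔ N = ⊤ := hM.2 _ (left_lt_sup.2 hNM)
    -- `N` is abelian, so `N ⊓ M` is normal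
    have hcomm : ∀ a ∈ N, ∀ b ∈ N, a * b = b * a := by
      have hD : (⁅N, N⁆).Normal := inferInstance
      rcases hN.2.2 _ hD (commutator_le_self N) with hb | hb
      · exact fun a ha b hb' => commutatorElement_eq_one_iff_mul_comm.1
          (Subgroup.mem_bot.1 (hb ▸ commutator_mem_commutator ha hb'))
      · exfalso
        haveI : Group.IsNilpotent N := (P.2.to_le hNP).isNilpotent
        haveI : Nontrivial N := (nontrivial_iff_ne_bot N).2 hN.1
        refine (Group.IsSolvable.commutator_lt_top_of_nontrivial N).ne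
          (Subgroup.map_injective N.subtype_injective ?_)
        rw [map_subtype_commutator, hb, ← MonoidHom.range_eq_map, Subgroup.range_subtype]
    have hinfn : (N ⊓ M).Normal := ⟨fun z hz g => by
      have hg : g ∈ (((N : Subgroup G) ⊔ M : Subgroup G) : Set G) :=
        (sup_comm M N ▸ hsup).symm ▸ Subgroup.mem_top g
      rw [Subgroup.normal_mul] at hg
      obtain ⟨n, hn, m, hm, rfl⟩ := hg
      have h1 : m * z * m⁻¹ ∈ N ⊓ M :=
        ⟨hN.2.1.conj_mem z hz.1 m, M.mul_mem (M.mul_mem hm hz.2) (M.inv_mem hm)⟩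
      show n * m * z * (n * m)⁻¹ ∈ N ⊓ M
      rwa [show n * m * z * (n * m)⁻¹ = n * (m * z * m⁻¹) * n⁻¹ by group,
        hcomm n hn _ h1.1, mul_inv_cancel_right]⟩
    have hinf : N ⊓ M = ⊥ :=
      (hN.2.2 _ hinfn inf_le_left).resolve_right fun he => hNM (inf_eq_left.1 he)
    have hc : IsComplement' N M := isComplement'_of_disjoint_and_mul_eq_univ
      (disjoint_iff.2 hinf) (by rw [← Subgroup.normal_mul, sup_comm, hsup, Subgroup.coe_top])
    have hprime : (Nat.card N).Prime := hc.index_eq_card ▸ h M hM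
    haveI := Fact.mk hprime
    haveI : IsCyclic N := isCyclic_of_prime_card rfl
    obtain ⟨g, hg⟩ := (Subgroup.isCyclic_iff_exists_zpowers_eq_top N).1 inferInstance
    exact ⟨g, hg.symm⟩

/-- **Saturation**: `G` is supersolvable iff `G ⧸ Φ(G)` is. -/
theorem isSupersolvable_iff_frattini :
    IsSupersolvable G ↔ IsSupersolvable (G ⧸ frattini G) := by
  refine ⟨fun h => h.quotient _, fun h => isSupersolvable_of_hasPrimeIndices fun M hM => ?_⟩
  set π := QuotientGroup.mk' (frattini G)
  have hcm : (M.map π).comap π = M := by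
    rw [Subgroup.comap_map_eq, QuotientGroup.ker_mk', sup_eq_left.2 (frattini_le_coatom hM)]
  have hco : IsCoatom (M.map π) := by
    refine ⟨fun ht => hM.1 (by rw [← hcm, ht, Subgroup.comap_top]), fun K hK => ?_⟩
    have hlt' : M < K.comap π :=
      hcm ▸ (Subgroup.comap_lt_comap_of_surjective (QuotientGroup.mk'_surjective _)).2 hK
    exact Subgroup.comap_injective (QuotientGroup.mk'_surjective _)
      ((hM.2 _ hlt').trans (Subgroup.comap_top _).symm)
  rw [← hcm, Subgroup.index_comap_of_surjective _ (QuotientGroup.mk'_surjective _)]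
  exact h.hasPrimeIndices _ hco

end FA.Supersolvable

end
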