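import Fermat.Agent.Supersolvable.Basic
import Mathlib.GroupTheory.Complement
import Mathlib.GroupTheory.Sylow
import Mathlib.GroupTheory.Frattini

/-!
# Chief factors, maximal subgroups and the Sylow subgroup for the largest prime

In a finite supersolvable group minimal normal subgroups and indices of maximal subgroups are
prime; if all maximal subgroups have prime index, the Sylow subgroup for the largest prime divisor
of the order is normal.
-/

set_option autoImplicit false
set_option linter.style.haveILetI false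

noncomputable section

open Subgroup

namespace FA.Supersolvable

variable {G : Type*} [Group G]

/-- A minimal normal subgroup. -/
def IsMinimalNormal (N : Subgroup G) : Prop :=
  N ≠ ⊥ ∧ N.Normal ∧ ∀ K : Subgroup G, K.Normal → K ≤ N → K = ⊥ ∨ K = N

/-- Every maximal subgroup has prime index. -/
def HasPrimeIndices (G : Type*) [Group G] : Prop :=
  ∀ M : Subgroup G, IsCoatom M → M.index.Prime

theorem exists_minimalNormal [Finite G] {P : Subgroup G} [P.Normal] (hP : P ≠ ⊥) :
    ∃ N ≤ P, IsMinimalNormal N := by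
  obtain ⟨N, ⟨hNP, hN, hN0⟩, hmin⟩ := Set.Finite.exists_minimal
    (s := {N : Subgroup G | N ≤ P ∧ N.Normal ∧ N ≠ ⊥}) (Set.toFinite _)
    ⟨P, le_rfl, ‹_›, hP⟩
  refine ⟨N, hNP, hN0, hN, fun K hK hKN => ?_⟩
  by_cases hK0 : K = ⊥
  · exact Or.inl hK0
  · exact Or.inr (le_antisymm hKN (hmin ⟨hKN.trans hNP, hK, hK0⟩ hKN))

/-- **Minimal normal subgroups of supersolvable groups have prime order.** -/
theorem IsSupersolvable.card_minimalNormal [Finite G] (h : IsSupersolvable G) {N : Subgroup G}
    (hN : IsMinimalNormal N) : (Nat.card N).Prime := by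
  obtain ⟨n, H, h0, hn, hH, hs⟩ := h
  obtain ⟨hN0, hNn, hmin⟩ := hN
  classical
  have hex : ∃ i, N ⊓ H i ≠ ⊥ := ⟨n, by rwa [hn, inf_top_eq]⟩
  set i := Nat.find hex
  have hi : N ⊓ H i ≠ ⊥ := Nat.find_spec hex
  have hNi : N ≤ H i := inf_eq_left.1
    ((hmin _ (@Subgroup.normal_inf_normal _ _ N (H i) hNn (hH i)) inf_le_left).resolve_left hi)
  obtain ⟨j, hj⟩ : ∃ j, i = j + 1 := Nat.exists_eq_succ_of_ne_zero fun h => by
    rw [h, h0, inf_bot_eq] at hi; exact hi rfl
  have hjn : j < n := by
    have : i ≤ n := Nat.find_le (by rwa [hn, inf_top_eq])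
    omega
  have hbot : N ⊓ H j = ⊥ := by
    by_contra h
    exact Nat.find_min hex (show j < i by omega) h
  obtain ⟨x, hx⟩ := hs j hjn
  haveI := hH j
  obtain ⟨y, hy⟩ := exists_comap_sup_zpowers N.subtype hx
  have hcyc : IsCyclic N := by
    refine isCyclic_iff_exists_zpowers_eq_top.2 ⟨y, ?_⟩
    have h1 : (H (j + 1)).comap N.subtype = ⊤ := by
      rw [eq_top_iff]
      exact fun z _ => hj ▸ hNi z.2
    have h2 : (H j).comap N.subtype = ⊥ := by
      rw [eq_bot_iff]
      exact fun z hz => Subtype.ext (Subgroup.mem_bot.1 (hbot ▸ ⟨z.2, hz⟩ :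
        ((z : N) : G) ∈ (⊥ : Subgroup G)))
    rw [← h1, hy, h2, bot_sup_eq]
  obtain ⟨p, hp, hdvd⟩ := Nat.exists_prime_and_dvd
    (fun h => hN0 (Subgroup.card_eq_one.1 h) : Nat.card N ≠ 1)
  letI := hcyc.commGroup
  let K : Subgroup G :=
    { carrier := {z | z ∈ N ∧ z ^ p = 1}
      one_mem' := ⟨N.one_mem, one_pow p⟩
      mul_mem' := fun {a b} ha hb => ⟨N.mul_mem ha.1 hb.1, by
        have : Commute a b :=
          congrArg Subtype.val (mul_comm (⟨a, ha.1⟩ : N) ⟨b, hb.1⟩)
        rw [this.mul_pow, ha.2, hb.2, one_mul]⟩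
      inv_mem' := fun {a} ha => ⟨N.inv_mem ha.1, by rw [inv_pow, ha.2, inv_one]⟩ }
  have hKn : K.Normal := ⟨fun z hz g => ⟨hNn.conj_mem z hz.1 g, by
    rw [conj_pow, hz.2, mul_one, mul_inv_cancel]⟩⟩
  haveI := Fact.mk hp
  obtain ⟨w, hw⟩ := exists_prime_orderOf_dvd_card' p hdvd
  have hKN : K = N := (hmin K hKn fun z hz => hz.1).resolve_left fun hb => by
    have : (w : G) ∈ K := ⟨w.2, by
      rw [← SubmonoidClass.coe_pow, ← hw, pow_orderOf_eq_one]; rfl⟩
    rw [hb, Subgroup.mem_bot] at this
    have : w = 1 := Subtype.ext this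
    rw [this, orderOf_one] at hw
    exact hp.one_lt.ne hw
  obtain ⟨g, hg⟩ := IsCyclic.exists_ofOrder_eq_natCard (α := N)
  have hgp : (g : G) ∈ K := hKN.symm ▸ g.2
  have hdiv : Nat.card N ∣ p :=
    hg ▸ orderOf_dvd_of_pow_eq_one (Subtype.ext hgp.2)
  rw [Nat.dvd_antisymm hdiv hdvd]
  exact hp

/-- **Maximal subgroups of supersolvable groups have prime index.** -/
theorem IsSupersolvable.hasPrimeIndices [Finite G] (h : IsSupersolvable G) :
    HasPrimeIndices G := by
  induction hk : Nat.card G using Nat.strong_induction_on generalizing G with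
  | _ k ih =>
    intro M hM
    rcases subsingleton_or_nontrivial G with hs | hs
    · exact absurd (Subsingleton.elim M ⊤) hM.1
    obtain ⟨N, -, hN⟩ := exists_minimalNormal (G := G) (P := ⊤) top_ne_bot
    have hp := h.card_minimalNormal hN
    obtain ⟨hN0, hNn, hmin⟩ := hN
    by_cases hNM : N ≤ M
    · have hlt : Nat.card (G ⧸ N) < k := by
        rw [← hk, card_eq_card_quotient_mul_card_subgroup N]
        exact lt_mul_of_one_lt_right Nat.card_pos hp.one_lt
      have hcm : (M.map (QuotientGroup.mk' N)).comap (QuotientGroup.mk' N) = M := by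
        rw [Subgroup.comap_map_eq, QuotientGroup.ker_mk', sup_eq_left.2 hNM]
      have hco : IsCoatom (M.map (QuotientGroup.mk' N)) := by
        refine ⟨fun ht => hM.1 (by rw [← hcm, ht, Subgroup.comap_top]), fun K hK => ?_⟩
        have hlt' : M < K.comap (QuotientGroup.mk' N) :=
          hcm ▸ (Subgroup.comap_lt_comap_of_surjective (QuotientGroup.mk'_surjective N)).2 hK
        exact Subgroup.comap_injective (QuotientGroup.mk'_surjective N)
          ((hM.2 _ hlt').trans (Subgroup.comap_top _).symm)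
      rw [← hcm, Subgroup.index_comap_of_surjective _ (QuotientGroup.mk'_surjective N)]
      exact ih _ hlt (h.quotient N) rfl _ hco
    · have hsup : M ⊔ N = ⊤ := hM.2 _ (left_lt_sup.2 hNM)
      have hinf : M ⊓ N = ⊥ := by
        refine inf_comm M N ▸ Subgroup.eq_bot_of_card_le _ ?_
        rcases (Nat.dvd_prime hp).1 (Subgroup.card_dvd_of_le (inf_le_left : N ⊓ M ≤ N)) with h1 | h1
        · exact h1.le
        · exact absurd (inf_eq_left.1 (Subgroup.eq_of_le_of_card_ge inf_le_left h1.ge)) hNM
      have hc : IsComplement' N M := isComplement'_of_disjoint_and_mul_eq_univ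
        (disjoint_iff.2 (inf_comm M N ▸ hinf))
        (by rw [← Subgroup.normal_mul, sup_comm, hsup, Subgroup.coe_top])
      rw [hc.index_eq_card]
      exact hp

/-- **The Sylow subgroup for the largest prime is normal** if all maximal indices are prime. -/
theorem HasPrimeIndices.sylow_normal [Finite G] (h : HasPrimeIndices G) {p : ℕ} [hp : Fact p.Prime]
    (hmax : ∀ q : ℕ, q.Prime → q ∣ Nat.card G → q ≤ p) (P : Sylow p G) :
    (P : Subgroup G).Normal := by
  by_contra hn
  have hne : normalizer ((P : Subgroup G) : Set G) ≠ ⊤ := fun ht =>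
    hn (normalizer_eq_top_iff.1 ht)
  obtain ⟨M, hM, hle⟩ := (eq_top_or_exists_le_coatom _).resolve_left hne
  have hq := h M hM
  have hPM : (P : Subgroup G) ≤ M := le_normalizer.trans hle
  have h1 := card_sylow_modEq_one p G
  rw [P.card_eq_index_normalizer,
    ← relIndex_mul_index (show normalizer (P : Set G) ≤ M from hle)] at h1
  have h2 := card_sylow_modEq_one p M
  rw [(P.subtype hPM).card_eq_index_normalizer,
    show ((P.subtype hPM : Sylow p M) : Set M) =
      (((P : Subgroup G).subgroupOf M : Subgroup M) : Set M) from rfl,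
    ← subgroupOf_normalizer_eq hPM] at h2
  have h3 : M.index ≡ 1 [MOD p] := by
    have := (h2.mul_right M.index).symm.trans h1
    rwa [one_mul] at this
  have hle' := hmax M.index hq M.index_dvd_card
  have hdvd : p ∣ M.index - 1 := (Nat.modEq_iff_dvd' hq.one_lt.le).1 h3.symm
  have := Nat.le_of_dvd (by have := hq.one_lt; omega) hdvd
  have := hq.one_lt
  omega

end FA.Supersolvable

end
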